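import Fermat.Agent.LT.T6.H683.DarbouxSpec

/-!
# Row LT, tower T6, leaf T6.22.B.2 `H683.DbLinC683` (registry row 1670): CLOSED
(helper468, OFF-MAIN; Mathlib + the Spec only)

`dbLinC468 : H683.DbLinC683`, VERBATIM vs `LT/T6/H683/DarbouxSpec.lean` (helper683, sha256
5201439e): the Darboux identity is linear in `g`.

* `rho_ge_one468`: `ρ(t, u, φ) ≥ 1` for ALL real `t, u, φ` (convex combination of `cosh (t ± u)`).
* `gT_lin468`, `gT_cont468`: the generalised translation is linear on the functions continuous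
  on `[0, ∞)`, and `q ↦ T f (t, q)` is continuous on `ℝ`.
* `gL_lin468`, `gL_contOn468`: the Green operator is linear on the functions continuous on
  `[0, ∞)` at the points `d ≥ 0`, and `G g` is continuous on `[0, ∞)`
  (`|A(r)⁻¹ ∫₀ʳ A g| ≤ r sup |g|`).
-/

set_option autoImplicit false

open MeasureTheory

noncomputable section

namespace Fermat.Agent.LT.T6.H468

open Fermat.Agent.LT.T6 Fermat.Agent.LT.T6.H888 Fermat.Agent.LT.T6.H683

/-! ## The weight `A` -/

theorem wtA_cont468 (n : ℤ) : Continuous (wtA888 n) := by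
  unfold wtA888
  by_cases h : n = 0
  · simp only [h, if_true]
    exact Real.continuous_sinh
  · simp only [h, if_false]
    exact Real.continuous_sinh.mul (continuous_const.add Real.continuous_cosh)

theorem wtA_pos468 (n : ℤ) {r : ℝ} (hr : 0 < r) : 0 < wtA888 n r := by
  unfold wtA888
  have h1 : 0 < Real.sinh r := Real.sinh_pos_iff.2 hr
  have h2 : 0 < Real.cosh r := Real.cosh_pos r
  split_ifs
  · exact h1
  · positivity

theorem wtA_nonneg468 (n : ℤ) {r : ℝ} (hr : 0 ≤ r) : 0 ≤ wtA888 n r := by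
  unfold wtA888
  have h1 : 0 ≤ Real.sinh r := Real.sinh_nonneg_iff.2 hr
  have h2 : 0 < Real.cosh r := Real.cosh_pos r
  split_ifs
  · exact h1
  · positivity

theorem wtA_mono468 (n : ℤ) {q r : ℝ} (hq : 0 ≤ q) (hqr : q ≤ r) :
    wtA888 n q ≤ wtA888 n r := by
  unfold wtA888
  have h1 : Real.sinh q ≤ Real.sinh r := Real.sinh_le_sinh.2 hqr
  have h2 : Real.cosh q ≤ Real.cosh r := by
    rw [Real.cosh_le_cosh, abs_of_nonneg hq, abs_of_nonneg (hq.trans hqr)]
    exact hqr
  have h3 : 0 ≤ Real.sinh q := Real.sinh_nonneg_iff.2 hq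
  have h4 : 0 < Real.cosh q := Real.cosh_pos q
  split_ifs
  · exact h1
  · exact mul_le_mul h1 (by linarith) (by positivity) (h3.trans h1)

/-! ## The generalised translation -/

/-- `ρ ≥ 1`: a convex combination of `cosh (t + u)` and `cosh (t - u)`. -/
theorem rho_ge_one468 (t u φ : ℝ) : 1 ≤ rho888 t u φ := by
  unfold rho888
  have h1 : 1 ≤ Real.cosh (t + u) := Real.one_le_cosh _
  have h2 : 1 ≤ Real.cosh (t - u) := Real.one_le_cosh _
  rw [Real.cosh_add] at h1
  rw [Real.cosh_sub] at h2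
  have h3 := Real.cos_le_one φ
  have h4 := Real.neg_one_le_cos φ
  nlinarith [mul_nonneg (by linarith : (0 : ℝ) ≤ 1 + Real.cos φ)
      (by linarith : (0 : ℝ) ≤ Real.cosh t * Real.cosh u + Real.sinh t * Real.sinh u - 1),
    mul_nonneg (by linarith : (0 : ℝ) ≤ 1 - Real.cos φ)
      (by linarith : (0 : ℝ) ≤ Real.cosh t * Real.cosh u - Real.sinh t * Real.sinh u - 1)]

theorem continuous_tanh468 : Continuous Real.tanh := by
  have h : Real.tanh = fun x => Real.sinh x / Real.cosh x := by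
    funext x
    exact Real.tanh_eq_sinh_div_cosh x
  rw [h]
  exact Real.continuous_sinh.div Real.continuous_cosh (fun x => (Real.cosh_pos x).ne')

theorem rho_cont468 (t : ℝ) : Continuous (fun p : ℝ × ℝ => rho888 t p.1 p.2) := by
  unfold rho888
  exact (continuous_const.mul (Real.continuous_cosh.comp continuous_fst)).add
    ((continuous_const.mul (Real.continuous_sinh.comp continuous_fst)).mul
      (Real.continuous_cos.comp continuous_snd))

theorem kerW_cont468 (n : ℤ) (t : ℝ) : Continuous (fun p : ℝ × ℝ => kerW888 n t p.1 p.2) := by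
  unfold kerW888
  by_cases h : n = 0
  · simp only [h, if_true]
    exact continuous_const
  · simp only [h, if_false]
    refine continuous_const.add ((continuous_const.mul ?_).mul
      (Real.continuous_cos.comp continuous_snd))
    exact continuous_tanh468.comp (continuous_fst.div_const 2)

/-- The integrand of the generalised translation is jointly continuous in `(q, φ)`. -/
theorem gT_integrand_cont468 (n : ℤ) {f : ℝ → ℂ} (hf : ContinuousOn f (Set.Ici 0)) (t : ℝ) :
    Continuous (fun p : ℝ × ℝ =>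
      ((kerW888 n t p.1 p.2 : ℝ) : ℂ) * f (Real.arcosh (rho888 t p.1 p.2))) := by
  have h1 : Continuous (fun p : ℝ × ℝ => Real.arcosh (rho888 t p.1 p.2)) :=
    Real.continuousOn_arcosh.comp_continuous (rho_cont468 t) (fun p => rho_ge_one468 _ _ _)
  have h2 : Continuous (fun p : ℝ × ℝ => f (Real.arcosh (rho888 t p.1 p.2))) :=
    hf.comp_continuous h1 (fun p => Real.arcosh_nonneg (rho_ge_one468 _ _ _))
  exact (Complex.continuous_ofReal.comp (kerW_cont468 n t)).mul h2

theorem gT_integrable468 (n : ℤ) {f : ℝ → ℂ} (hf : ContinuousOn f (Set.Ici 0)) (t q : ℝ) :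
    IntervalIntegrable (fun φ : ℝ =>
      ((kerW888 n t q φ : ℝ) : ℂ) * f (Real.arcosh (rho888 t q φ))) volume 0 (2 * Real.pi) := by
  have h := (gT_integrand_cont468 n hf t).comp
    (Continuous.prodMk (continuous_const (y := q)) continuous_id)
  exact h.intervalIntegrable _ _

/-- `q ↦ T f (t, q)` is continuous. -/
theorem gT_cont468 (n : ℤ) {f : ℝ → ℂ} (hf : ContinuousOn f (Set.Ici 0)) (t : ℝ) :
    Continuous (fun q : ℝ => gT888 n f t q) := by
  unfold gT888
  refine continuous_const.mul ?_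
  exact intervalIntegral.continuous_parametric_intervalIntegral_of_continuous
    (f := fun q φ => ((kerW888 n t q φ : ℝ) : ℂ) * f (Real.arcosh (rho888 t q φ)))
    (gT_integrand_cont468 n hf t) continuous_const

/-- The generalised translation only uses the values at the points `≥ 0`. -/
theorem gT_congr468 (n : ℤ) {f f' : ℝ → ℂ} (h : ∀ x : ℝ, 0 ≤ x → f x = f' x) (t q : ℝ) :
    gT888 n f t q = gT888 n f' t q := by
  unfold gT888
  congr 1
  refine intervalIntegral.integral_congr (fun φ _ => ?_)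
  rw [h _ (Real.arcosh_nonneg (rho_ge_one468 _ _ _))]

/-- The generalised translation is linear. -/
theorem gT_lin468 (n : ℤ) {f₁ f₂ : ℝ → ℂ} (h₁ : ContinuousOn f₁ (Set.Ici 0))
    (h₂ : ContinuousOn f₂ (Set.Ici 0)) (a b : ℂ) (t q : ℝ) :
    gT888 n (fun x => a * f₁ x + b * f₂ x) t q = a * gT888 n f₁ t q + b * gT888 n f₂ t q := by
  unfold gT888
  have e : (fun φ : ℝ => ((kerW888 n t q φ : ℝ) : ℂ)
        * (a * f₁ (Real.arcosh (rho888 t q φ)) + b * f₂ (Real.arcosh (rho888 t q φ))))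
      = fun φ : ℝ => a * (((kerW888 n t q φ : ℝ) : ℂ) * f₁ (Real.arcosh (rho888 t q φ)))
        + b * (((kerW888 n t q φ : ℝ) : ℂ) * f₂ (Real.arcosh (rho888 t q φ))) := by
    funext φ
    ring
  rw [e, intervalIntegral.integral_add ((gT_integrable468 n h₁ t q).const_mul a)
    ((gT_integrable468 n h₂ t q).const_mul b), intervalIntegral.integral_const_mul,
    intervalIntegral.integral_const_mul]
  ring

/-! ## The Green operator -/

/-- The inner integral of the Green operator. -/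
def innerG468 (n : ℤ) (g : ℝ → ℂ) (r : ℝ) : ℂ :=
  ∫ q in (0 : ℝ)..r, ((wtA888 n q : ℝ) : ℂ) * g q

theorem gL_eq468 (n : ℤ) (g : ℝ → ℂ) (t : ℝ) :
    gL888 n g t = ∫ r in (0 : ℝ)..t, (((wtA888 n r)⁻¹ : ℝ) : ℂ) * innerG468 n g r := rfl

theorem inner_contOn468 (n : ℤ) {g : ℝ → ℂ} (hg : ContinuousOn g (Set.Ici 0)) :
    ContinuousOn (fun q : ℝ => ((wtA888 n q : ℝ) : ℂ) * g q) (Set.Ici 0) :=
  (Complex.continuous_ofReal.comp (wtA_cont468 n)).continuousOn.mul hg

theorem inner_integrable468 (n : ℤ) {g : ℝ → ℂ} (hg : ContinuousOn g (Set.Ici 0)) {r : ℝ}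
    (hr : 0 ≤ r) :
    IntervalIntegrable (fun q : ℝ => ((wtA888 n q : ℝ) : ℂ) * g q) volume 0 r := by
  refine ContinuousOn.intervalIntegrable ((inner_contOn468 n hg).mono ?_)
  rw [Set.uIcc_of_le hr]
  exact Set.Icc_subset_Ici_self

theorem innerG_lin468 (n : ℤ) {g h : ℝ → ℂ} (hg : ContinuousOn g (Set.Ici 0))
    (hh : ContinuousOn h (Set.Ici 0)) (a b : ℂ) {r : ℝ} (hr : 0 ≤ r) :
    innerG468 n (fun q => a * g q + b * h q) r = a * innerG468 n g r + b * innerG468 n h r := by
  unfold innerG468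
  have e : (fun q : ℝ => ((wtA888 n q : ℝ) : ℂ) * (a * g q + b * h q))
      = fun q : ℝ => a * (((wtA888 n q : ℝ) : ℂ) * g q) + b * (((wtA888 n q : ℝ) : ℂ) * h q) := by
    funext q
    ring
  rw [e, intervalIntegral.integral_add ((inner_integrable468 n hg hr).const_mul a)
    ((inner_integrable468 n hh hr).const_mul b), intervalIntegral.integral_const_mul,
    intervalIntegral.integral_const_mul]

/-- The inner integral is continuous on `[0, ∞)`. -/
theorem innerG_contOn468 (n : ℤ) {g : ℝ → ℂ} (hg : ContinuousOn g (Set.Ici 0)) :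
    ContinuousOn (innerG468 n g) (Set.Ici 0) := by
  intro x hx
  have hx0 : (0 : ℝ) ≤ x := hx
  have hint : IntegrableOn (fun q : ℝ => ((wtA888 n q : ℝ) : ℂ) * g q)
      (Set.uIcc 0 (x + 1)) volume := by
    rw [Set.uIcc_of_le (by linarith)]
    exact ((inner_contOn468 n hg).mono Set.Icc_subset_Ici_self).integrableOn_Icc
  have hc := intervalIntegral.continuousOn_primitive_interval hint
  rw [Set.uIcc_of_le (by linarith : (0 : ℝ) ≤ x + 1)] at hc
  have hmem : Set.Icc (0 : ℝ) (x + 1) ∈ nhdsWithin x (Set.Ici 0) := by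
    have h1 : Set.Iio (x + 1) ∈ nhds x := Iio_mem_nhds (by linarith)
    have h2 : Set.Ici (0 : ℝ) ∩ Set.Iio (x + 1) ∈ nhdsWithin x (Set.Ici 0) :=
      Filter.inter_mem self_mem_nhdsWithin (nhdsWithin_le_nhds h1)
    refine Filter.mem_of_superset h2 ?_
    rintro y ⟨hy1, hy2⟩
    exact ⟨hy1, le_of_lt hy2⟩
  exact (hc x ⟨hx0, by linarith⟩).mono_of_mem_nhdsWithin hmem

/-- The bound `|A(r)⁻¹ ∫₀ʳ A g| ≤ r sup |g|`. -/
theorem outer_bound468 (n : ℤ) {g : ℝ → ℂ} {d S : ℝ}
    (hS : ∀ x ∈ Set.Icc (0 : ℝ) d, ‖g x‖ ≤ S) {r : ℝ} (hr0 : 0 < r) (hrd : r ≤ d) :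
    ‖(((wtA888 n r)⁻¹ : ℝ) : ℂ) * innerG468 n g r‖ ≤ S * d := by
  have hA : 0 < wtA888 n r := wtA_pos468 n hr0
  have hS0 : 0 ≤ S := (norm_nonneg _).trans (hS r ⟨hr0.le, hrd⟩)
  have h1 : ‖innerG468 n g r‖ ≤ wtA888 n r * S * |r - 0| := by
    unfold innerG468
    refine intervalIntegral.norm_integral_le_of_norm_le_const (fun x hx => ?_)
    rw [Set.uIoc_of_le hr0.le] at hx
    rw [norm_mul, Complex.norm_real, Real.norm_eq_abs, abs_of_nonneg (wtA_nonneg468 n hx.1.le)]
    exact mul_le_mul (wtA_mono468 n hx.1.le hx.2) (hS x ⟨hx.1.le, hx.2.trans hrd⟩)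
      (norm_nonneg _) hA.le
  rw [sub_zero, abs_of_pos hr0] at h1
  rw [norm_mul, Complex.norm_real, Real.norm_eq_abs, abs_of_pos (inv_pos.2 hA)]
  calc (wtA888 n r)⁻¹ * ‖innerG468 n g r‖
      ≤ (wtA888 n r)⁻¹ * (wtA888 n r * S * r) :=
        mul_le_mul_of_nonneg_left h1 (inv_pos.2 hA).le
    _ = S * r := by
        field_simp
    _ ≤ S * d := mul_le_mul_of_nonneg_left hrd hS0

/-- The integrand of the Green operator is integrable on `[0, d]`. -/
theorem outer_integrable468 (n : ℤ) {g : ℝ → ℂ} (hg : ContinuousOn g (Set.Ici 0)) {d : ℝ}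
    (hd : 0 ≤ d) :
    IntervalIntegrable (fun r : ℝ => (((wtA888 n r)⁻¹ : ℝ) : ℂ) * innerG468 n g r)
      volume 0 d := by
  rw [intervalIntegrable_iff_integrableOn_Ioc_of_le hd]
  obtain ⟨S, hS⟩ := isCompact_Icc.exists_bound_of_continuousOn
    (hg.mono (Set.Icc_subset_Ici_self : Set.Icc (0 : ℝ) d ⊆ Set.Ici 0))
  have hcont : ContinuousOn (fun r : ℝ => (((wtA888 n r)⁻¹ : ℝ) : ℂ) * innerG468 n g r)
      (Set.Ioc 0 d) := by
    refine ContinuousOn.mul ?_ ((innerG_contOn468 n hg).mono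
      (fun r hr => (le_of_lt hr.1 : (0 : ℝ) ≤ r)))
    refine Complex.continuous_ofReal.comp_continuousOn ?_
    exact (wtA_cont468 n).continuousOn.inv₀ (fun r hr => (wtA_pos468 n hr.1).ne')
  have hmeas := hcont.aestronglyMeasurable (μ := volume) measurableSet_Ioc
  refine Integrable.of_bound hmeas (S * d) ?_
  refine (ae_restrict_iff' measurableSet_Ioc).2 (Filter.Eventually.of_forall (fun r hr => ?_))
  exact outer_bound468 n hS hr.1 hr.2

/-- The Green operator is linear (at the points `d ≥ 0`). -/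
theorem gL_lin468 (n : ℤ) {g h : ℝ → ℂ} (hg : ContinuousOn g (Set.Ici 0))
    (hh : ContinuousOn h (Set.Ici 0)) (a b : ℂ) {d : ℝ} (hd : 0 ≤ d) :
    gL888 n (fun q => a * g q + b * h q) d = a * gL888 n g d + b * gL888 n h d := by
  rw [gL_eq468, gL_eq468, gL_eq468]
  have e : ∫ r in (0 : ℝ)..d, (((wtA888 n r)⁻¹ : ℝ) : ℂ)
        * innerG468 n (fun q => a * g q + b * h q) r
      = ∫ r in (0 : ℝ)..d, (a * ((((wtA888 n r)⁻¹ : ℝ) : ℂ) * innerG468 n g r)
        + b * ((((wtA888 n r)⁻¹ : ℝ) : ℂ) * innerG468 n h r)) := by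
    refine intervalIntegral.integral_congr (fun r hr => ?_)
    rw [Set.uIcc_of_le hd] at hr
    rw [innerG_lin468 n hg hh a b hr.1]
    ring
  rw [e, intervalIntegral.integral_add ((outer_integrable468 n hg hd).const_mul a)
    ((outer_integrable468 n hh hd).const_mul b), intervalIntegral.integral_const_mul,
    intervalIntegral.integral_const_mul]

/-- `G g` is continuous on `[0, ∞)`. -/
theorem gL_contOn468 (n : ℤ) {g : ℝ → ℂ} (hg : ContinuousOn g (Set.Ici 0)) :
    ContinuousOn (gL888 n g) (Set.Ici 0) := by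
  intro x hx
  have hx0 : (0 : ℝ) ≤ x := hx
  have hint : IntegrableOn (fun r : ℝ => (((wtA888 n r)⁻¹ : ℝ) : ℂ) * innerG468 n g r)
      (Set.uIcc 0 (x + 1)) volume := by
    have h := outer_integrable468 n hg (by linarith : (0 : ℝ) ≤ x + 1)
    rw [intervalIntegrable_iff_integrableOn_Icc_of_le (by linarith)] at h
    rw [Set.uIcc_of_le (by linarith)]
    exact h
  have hc := intervalIntegral.continuousOn_primitive_interval hint
  rw [Set.uIcc_of_le (by linarith : (0 : ℝ) ≤ x + 1)] at hc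
  have hmem : Set.Icc (0 : ℝ) (x + 1) ∈ nhdsWithin x (Set.Ici 0) := by
    have h1 : Set.Iio (x + 1) ∈ nhds x := Iio_mem_nhds (by linarith)
    have h2 : Set.Ici (0 : ℝ) ∩ Set.Iio (x + 1) ∈ nhdsWithin x (Set.Ici 0) :=
      Filter.inter_mem self_mem_nhdsWithin (nhdsWithin_le_nhds h1)
    refine Filter.mem_of_superset h2 ?_
    rintro y ⟨hy1, hy2⟩
    exact ⟨hy1, le_of_lt hy2⟩
  have := (hc x ⟨hx0, by linarith⟩).mono_of_mem_nhdsWithin hmem
  exact this

/-! ## The leaf -/

/-- **Leaf T6.22.B.2 `DbLinC683`**, VERBATIM. -/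
theorem dbLinC468 : DbLinC683 := by
  intro n _ g h hg hh a b hG hH t u ht hu
  have hGg := gL_contOn468 n hg
  have hGh := gL_contOn468 n hh
  -- the left-hand side
  have e1 : gT888 n (gL888 n (fun q => a * g q + b * h q)) t u
      = a * gT888 n (gL888 n g) t u + b * gT888 n (gL888 n h) t u := by
    rw [gT_congr468 n (f' := fun x => a * gL888 n g x + b * gL888 n h x)
      (fun x hx => gL_lin468 n hg hh a b hx) t u]
    exact gT_lin468 n hGg hGh a b t u
  -- the right-hand side
  have e2 : (fun q => gT888 n (fun q => a * g q + b * h q) t q)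
      = fun q => a * gT888 n g t q + b * gT888 n h t q := by
    funext q
    exact gT_lin468 n hg hh a b t q
  have e3 : gL888 n (fun q => gT888 n (fun q => a * g q + b * h q) t q) u
      = a * gL888 n (fun q => gT888 n g t q) u + b * gL888 n (fun q => gT888 n h t q) u := by
    rw [e2]
    exact gL_lin468 n (gT_cont468 n hg t).continuousOn (gT_cont468 n hh t).continuousOn a b
      hu.le
  rw [e1, e3, gL_lin468 n hg hh a b ht.le, hG t u ht hu, hH t u ht hu]
  ring

end Fermat.Agent.LT.T6.H468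

end
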